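/-
S26 / block GOOD (architect helper169): DEFINITIONS.

Route: TANGENT VECTORS instead of cotangent calculus.  For a `K`-vector space `M` let
`R_M = TrivSqZeroExt K M = K ⊕ M ε` (a local ring), `DM K M = Spec R_M`,
`dM : DM K M ⟶ Spec K` the structure map, `cM : Spec K ⟶ DM K M` the closed point and
`mapM ℓ : DM K M' ⟶ DM K M` the morphism attached to a linear map `ℓ : M → M'`.
* `sh x h : 𝒪_{X,p} →+* R` : the local homomorphism attached to `x : Spec R ⟶ X` with `x(closed point) = p`;
* `der x p : 𝒪_{X,p} → M`  : the `ε`-part of `sh x` for `x : DM K M ⟶ X` (junk value `0` if `x(closed point) ≠ p`);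
* `kap t p : K →+* 𝒪_{T,p}` : the structure map of the stalks of a scheme over `Spec K`;
* `TanInj y s φ`           : the tangent map of `φ : Y ⟶ X` at the rational point `s` is injective;
* `Ker 𝔸 M`                : the kernel of `A(R_M) → A(K)`.
Only definitions (with the small proofs needed to make them).
-/
import Fermat.Agent.S26.System

set_option autoImplicit false

universe u

open CategoryTheory CategoryTheory.Limits AlgebraicGeometry NeronModelInfra GoodReductionJacobian

namespace Fermat.Agent.S26.Good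

section tsze

variable (K : Type u) [Field K] (M : Type u) [AddCommGroup M] [Module K M] [Module Kᵐᵒᵖ M]
  [IsCentralScalar K M]

instance isLocalRing_tsze : IsLocalRing (TrivSqZeroExt K M) where
  isUnit_or_isUnit_of_add_one {a b} h := by
    rw [add_comm, ← eq_sub_iff_add_eq] at h
    rcases eq_or_ne (TrivSqZeroExt.fst a) 0 with ha | ha <;>
    simp [TrivSqZeroExt.isUnit_iff_isUnit_fst, h, ha]

/-- `Spec (K ⊕ M ε)`. -/
noncomputable abbrev DM : Scheme.{u} := Spec (CommRingCat.of (TrivSqZeroExt K M))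

/-- the closed point of `DM K M`, as a point of the underlying space -/
noncomputable abbrev clM : DM K M := IsLocalRing.closedPoint (TrivSqZeroExt K M)

/-- the structure map -/
noncomputable def dM : DM K M ⟶ SK K := Spec.map (CommRingCat.ofHom (TrivSqZeroExt.inlHom K M))

/-- the closed point -/
noncomputable def cM : SK K ⟶ DM K M :=
  Spec.map (CommRingCat.ofHom (TrivSqZeroExt.fstHom K K M).toRingHom)

theorem cM_dM : cM K M ≫ dM K M = 𝟙 _ := by
  rw [cM, dM, ← Spec.map_comp, ← CommRingCat.ofHom_comp]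
  exact Spec.map_id _

variable {K M}
variable {M' : Type u} [AddCommGroup M'] [Module K M'] [Module Kᵐᵒᵖ M'] [IsCentralScalar K M']

/-- the morphism attached to a linear map -/
noncomputable def mapM (ℓ : M →ₗ[K] M') : DM K M' ⟶ DM K M :=
  Spec.map (CommRingCat.ofHom (TrivSqZeroExt.map ℓ).toRingHom)

end tsze

/-- The local homomorphism attached to a morphism `x : Spec R ⟶ X` which maps the closed point
to `p`. -/
noncomputable def sh {X : Scheme.{u}} {R : CommRingCat.{u}} [IsLocalRing R] (x : Spec R ⟶ X) {p : X}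
    (h : x (IsLocalRing.closedPoint R) = p) : X.presheaf.stalk p →+* R :=
  ((X.presheaf.stalkCongr (.of_eq h.symm)).hom ≫ Scheme.stalkClosedPointTo x).hom

variable {K : Type u} [Field K]

open Classical in
/-- The `ε`-part of `sh x`. -/
noncomputable def der {M : Type u} [AddCommGroup M] [Module K M] [Module Kᵐᵒᵖ M]
    [IsCentralScalar K M] {X : Scheme.{u}} (x : DM K M ⟶ X) (p : X) (a : X.presheaf.stalk p) : M :=
  if h : x (clM K M) = p then
    (sh (R := CommRingCat.of (TrivSqZeroExt K M)) x h a).snd else 0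

/-- The structure map `K → 𝒪_{T,p}` of a scheme over `Spec K`. -/
noncomputable def kap {T : Scheme.{u}} (t : T ⟶ SK K) (p : T) : K →+* T.presheaf.stalk p :=
  (T.presheaf.germ ⊤ p trivial).hom.comp
    (t.appTop.hom.comp (Scheme.ΓSpecIso (CommRingCat.of K)).inv.hom)

/-- The tangent map of `φ` at the rational point `s` is injective. -/
def TanInj {X Y : Scheme.{u}} (y : Y ⟶ SK K) (s : SK K ⟶ Y) (φ : Y ⟶ X) : Prop :=
  ∀ v : DM K K ⟶ Y, v ≫ y = dM K K → cM K K ≫ v = s → v ≫ φ = dM K K ≫ s ≫ φ → v = dM K K ≫ s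

/-- The kernel of `A(K ⊕ M ε) → A(K)`. -/
noncomputable def Ker (𝔸 : AbVar K) (M : Type u) [AddCommGroup M] [Module K M] [Module Kᵐᵒᵖ M]
    [IsCentralScalar K M] : Subgroup (𝔸.Pt (dM K M)) :=
  (AbVar.Pt.comp (𝔸 := 𝔸) (cM K M) (cM_dM K M)).ker

/-- the germ of the coordinate `t j` at the origin -/
noncomputable def tg {𝔸 : AbVar K} {g : ℕ} (S : CurveSystem 𝔸 g) (j : Fin g) :
    𝔸.A.presheaf.stalk 𝔸.o :=
  𝔸.A.presheaf.germ S.U 𝔸.o S.hU (S.t j)

/-- The invariant of the induction: `W` is smooth of dimension `#J`, `τ(pt) = o`, the tangent map of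
`τ` at `pt` is injective and its image is the coordinate subspace `J`. -/
structure Inv {𝔸 : AbVar K} {g : ℕ} (S : CurveSystem 𝔸 g) (B : Based 𝔸) (J : Finset (Fin g)) :
    Prop where
  smooth : SmoothOfRelativeDimension J.card B.w
  base : AbVar.Pt.comp B.pt.1 B.pt.2 B.τ = 1
  off : ∀ v : DM K K ⟶ B.W, v ≫ B.w = dM K K → cM K K ≫ v = B.pt.1 →
    ∀ j ∉ J, der (v ≫ B.τ.hom) 𝔸.o (tg S j) = 0
  inj : ∀ v : DM K K ⟶ B.W, v ≫ B.w = dM K K → cM K K ≫ v = B.pt.1 →
    (∀ j ∈ J, der (v ≫ B.τ.hom) 𝔸.o (tg S j) = 0) → v = dM K K ≫ B.pt.1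

end Fermat.Agent.S26.Good
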