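/-
S26 / GOOD (architect helper169), leaf GOOD-2 (helper233).

Formal properties of `sh x h : 𝒪_{X,p} →+* R` (`x : Spec R ⟶ X`, `R` local, `h : x (closed point) = p`).
-/
import Fermat.Agent.S26.Good.Defs

set_option autoImplicit false

universe u

open CategoryTheory CategoryTheory.Limits AlgebraicGeometry

namespace Fermat.Agent.S26.Good

variable {X Y : Scheme.{u}} {R R' : CommRingCat.{u}} [IsLocalRing R] [IsLocalRing R']

theorem sh_rfl (x : Spec R ⟶ X) : sh x rfl = (Scheme.stalkClosedPointTo x).hom := by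
  unfold sh
  rw [TopCat.Presheaf.stalkCongr_hom, TopCat.Presheaf.stalkSpecializes_refl, Category.id_comp]

theorem isLocalHom_sh (x : Spec R ⟶ X) {p : X} (h : x (IsLocalRing.closedPoint R) = p) :
    IsLocalHom (sh x h) := by
  subst h
  rw [sh_rfl]
  infer_instance

theorem Spec_map_sh (x : Spec R ⟶ X) {p : X} (h : x (IsLocalRing.closedPoint R) = p) :
    Spec.map (CommRingCat.ofHom (sh x h)) ≫ X.fromSpecStalk p = x := by
  subst h
  rw [sh_rfl, CommRingCat.ofHom_hom]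
  exact Scheme.Spec_stalkClosedPointTo_fromSpecStalk x

theorem sh_fromSpecStalk {p : X} (θ : X.presheaf.stalk p ⟶ R) [IsLocalHom θ.hom]
    (h : (Spec.map θ ≫ X.fromSpecStalk p) (IsLocalRing.closedPoint R) = p) :
    sh (Spec.map θ ≫ X.fromSpecStalk p) h = θ.hom := by
  unfold sh
  congr 1
  refine TopCat.Presheaf.stalk_hom_ext _ fun U hxU ↦ ?_
  simp only [Scheme.germ_stalkClosedPointTo_Spec_fromSpecStalk,
    TopCat.Presheaf.stalkCongr_hom, TopCat.Presheaf.germ_stalkSpecializes_assoc]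

theorem sh_congr {x x' : Spec R ⟶ X} (e : x = x') {p : X}
    (h : x (IsLocalRing.closedPoint R) = p) (h' : x' (IsLocalRing.closedPoint R) = p) :
    sh x h = sh x' h' := by
  subst e
  rfl

theorem ext_of_sh {x x' : Spec R ⟶ X} {p : X} (h : x (IsLocalRing.closedPoint R) = p)
    (h' : x' (IsLocalRing.closedPoint R) = p) (e : sh x h = sh x' h') : x = x' := by
  rw [← Spec_map_sh x h, ← Spec_map_sh x' h', e]

theorem sh_comp (x : Spec R ⟶ X) {p : X} (h : x (IsLocalRing.closedPoint R) = p) (φ : X ⟶ Y)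
    (h' : (x ≫ φ) (IsLocalRing.closedPoint R) = φ p) :
    sh (x ≫ φ) h' = (sh x h).comp (φ.stalkMap p).hom := by
  subst h
  change sh (x ≫ φ) rfl = _
  rw [sh_rfl, sh_rfl, Scheme.stalkClosedPointTo_comp]
  rfl

theorem sh_comp_germ (x : Spec R ⟶ X) {p : X} (h : x (IsLocalRing.closedPoint R) = p) (φ : X ⟶ Y)
    {q : Y} (hq : (x ≫ φ) (IsLocalRing.closedPoint R) = q) (U : Y.Opens) (hU : q ∈ U)
    (hU' : p ∈ φ ⁻¹ᵁ U) (s : Γ(Y, U)) :
    sh (x ≫ φ) hq (Y.presheaf.germ U q hU s) =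
      sh x h (X.presheaf.germ (φ ⁻¹ᵁ U) p hU' (φ.app U s)) := by
  have hq' : φ p = q := by rw [← hq, ← h]; rfl
  subst hq'
  rw [sh_comp x h φ hq, RingHom.comp_apply]
  congr 1
  exact congrArg (fun f => f.hom s) (Scheme.Hom.germ_stalkMap φ U p hU')

theorem sh_Spec_map (θ : R ⟶ R') [IsLocalHom θ.hom] (x : Spec R ⟶ X) {p : X}
    (h : x (IsLocalRing.closedPoint R) = p)
    (h' : (Spec.map θ ≫ x) (IsLocalRing.closedPoint R') = p) :
    sh (Spec.map θ ≫ x) h' = θ.hom.comp (sh x h) := by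
  haveI := isLocalHom_sh x h
  haveI : IsLocalHom (CommRingCat.ofHom (sh x h) ≫ θ).hom := by
    rw [CommRingCat.hom_comp, CommRingCat.hom_ofHom]
    exact RingHom.isLocalHom_comp _ _
  have e : Spec.map θ ≫ x
      = Spec.map (CommRingCat.ofHom (sh x h) ≫ θ) ≫ X.fromSpecStalk p := by
    rw [Spec.map_comp, Category.assoc, Spec_map_sh]
  rw [sh_congr e h' (e ▸ h'), sh_fromSpecStalk]
  rfl

end Fermat.Agent.S26.Good
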