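/-
S26 / GOOD (architect helper169), leaf GOOD-4.

The structure map `kap t p : K →+* 𝒪_{T,p}` and the local homomorphisms `sh x`.
-/
import Fermat.Agent.S26.Good.Sh

set_option autoImplicit false

universe u

open CategoryTheory CategoryTheory.Limits AlgebraicGeometry

namespace Fermat.Agent.S26.Good

variable {K : Type u} [Field K]

theorem Kap_aux {R : CommRingCat.{u}} [IsLocalRing R] (ψ : CommRingCat.of K ⟶ R)
    (z : Spec R ⟶ SK K) (hz : z = Spec.map ψ) {q : SK K}
    (hq : z (IsLocalRing.closedPoint R) = q) (c : K) :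
    sh z hq ((SK K).presheaf.germ ⊤ q trivial
      ((Scheme.ΓSpecIso (CommRingCat.of K)).inv.hom c)) = ψ.hom c := by
  subst hz
  subst hq
  rw [sh_rfl]
  have h1 := Scheme.germ_stalkClosedPointTo_Spec ψ
  have h2 := congrArg (fun f => f.hom ((Scheme.ΓSpecIso (CommRingCat.of K)).inv.hom c)) h1
  simpa using h2

theorem sh_kap {T : Scheme.{u}} (t : T ⟶ SK K) {R : CommRingCat.{u}} [IsLocalRing R]
    (x : Spec R ⟶ T) {p : T} (h : x (IsLocalRing.closedPoint R) = p) (ψ : CommRingCat.of K ⟶ R)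
    (hx : x ≫ t = Spec.map ψ) (c : K) : sh x h (kap t p c) = ψ.hom c := by
  have h1 := sh_comp_germ x h t (q := (x ≫ t) (IsLocalRing.closedPoint R)) rfl ⊤ trivial trivial
    ((Scheme.ΓSpecIso (CommRingCat.of K)).inv.hom c)
  have h2 := Kap_aux ψ (x ≫ t) hx rfl c
  exact h1.symm.trans h2

/-- the stalk at a rational point is `K ⊕ 𝔪` -/
theorem exists_kap_add {T : Scheme.{u}} (t : T ⟶ SK K) (s : SK K ⟶ T) (hs : s ≫ t = 𝟙 _)
    (a : T.presheaf.stalk (s (cpt K))) :
    ∃ c : K, a - kap t (s (cpt K)) c ∈ IsLocalRing.maximalIdeal (T.presheaf.stalk (s (cpt K))) := by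
  have hk : ∀ c : K, sh (R := CommRingCat.of K) s rfl (kap t (s (cpt K)) c) = c := fun c =>
    sh_kap t (R := CommRingCat.of K) s rfl (𝟙 _) (hs.trans (Spec.map_id _).symm) c
  refine ⟨sh (R := CommRingCat.of K) s rfl a, ?_⟩
  rw [IsLocalRing.mem_maximalIdeal, mem_nonunits_iff]
  intro hu
  have h1 := hu.map (sh (R := CommRingCat.of K) s rfl)
  rw [map_sub, hk, sub_self] at h1
  exact not_isUnit_zero h1

end Fermat.Agent.S26.Good
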