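/-
S26 / GOOD (architect helper169), leaf GOOD-3 (task 3492, helper84).

Formal identities between `dM`, `cM`, `mapM` (all are `Spec.map` of explicit ring homomorphisms between
`K` and `TrivSqZeroExt K M`) and their values at the closed points.
-/
import Fermat.Agent.S26.Good.Defs

set_option autoImplicit false

universe u

open CategoryTheory CategoryTheory.Limits AlgebraicGeometry

namespace Fermat.Agent.S26.Good

variable {K : Type u} [Field K]
variable {M : Type u} [AddCommGroup M] [Module K M] [Module Kᵐᵒᵖ M] [IsCentralScalar K M]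
variable {M' : Type u} [AddCommGroup M'] [Module K M'] [Module Kᵐᵒᵖ M'] [IsCentralScalar K M']
variable {M'' : Type u} [AddCommGroup M''] [Module K M''] [Module Kᵐᵒᵖ M''] [IsCentralScalar K M'']

theorem isLocalHom_inlHom : IsLocalHom (TrivSqZeroExt.inlHom K M) where
  map_nonunit a ha := by
    rw [TrivSqZeroExt.isUnit_iff_isUnit_fst] at ha
    simpa using ha

theorem isLocalHom_fstHom : IsLocalHom (TrivSqZeroExt.fstHom K K M).toRingHom where
  map_nonunit a ha := by
    rw [TrivSqZeroExt.isUnit_iff_isUnit_fst]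
    simpa using ha

theorem isLocalHom_map (ℓ : M →ₗ[K] M') : IsLocalHom (TrivSqZeroExt.map ℓ).toRingHom where
  map_nonunit a ha := by
    rw [TrivSqZeroExt.isUnit_iff_isUnit_fst] at ha ⊢
    simpa using ha

theorem mapM_dM (ℓ : M →ₗ[K] M') : mapM ℓ ≫ dM K M = dM K M' := by
  rw [mapM, dM, dM, ← Spec.map_comp, ← CommRingCat.ofHom_comp]
  congr 2
  ext a
  · simp
  · simp

theorem cM_mapM (ℓ : M →ₗ[K] M') : cM K M' ≫ mapM ℓ = cM K M := by
  rw [mapM, cM, cM, ← Spec.map_comp, ← CommRingCat.ofHom_comp]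
  congr 2
  ext a
  simp

theorem mapM_id : mapM (LinearMap.id : M →ₗ[K] M) = 𝟙 _ := by
  rw [mapM, TrivSqZeroExt.map_id]
  exact Spec.map_id _

theorem mapM_comp (ℓ : M →ₗ[K] M') (ℓ' : M' →ₗ[K] M'') :
    mapM ℓ' ≫ mapM ℓ = mapM (ℓ' ∘ₗ ℓ) := by
  rw [mapM, mapM, mapM, ← Spec.map_comp, ← CommRingCat.ofHom_comp]
  congr 2
  ext a
  · simp
  · simp

theorem mapM_zero : mapM (0 : M →ₗ[K] M') = dM K M' ≫ cM K M := by
  rw [mapM, dM, cM, ← Spec.map_comp, ← CommRingCat.ofHom_comp]
  congr 2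
  ext a
  · simp
  · simp

theorem cM_cpt : cM K M (cpt K) = clM K M := by
  have := isLocalHom_fstHom (K := K) (M := M)
  exact Spec_closedPoint (f := CommRingCat.ofHom (TrivSqZeroExt.fstHom K K M).toRingHom)

theorem mapM_clM (ℓ : M →ₗ[K] M') : mapM ℓ (clM K M') = clM K M := by
  have := isLocalHom_map ℓ
  exact Spec_closedPoint (f := CommRingCat.ofHom (TrivSqZeroExt.map ℓ).toRingHom)

theorem dM_clM : dM K M (clM K M) = cpt K := by
  have := isLocalHom_inlHom (K := K) (M := M)
  exact Spec_closedPoint (f := CommRingCat.ofHom (TrivSqZeroExt.inlHom K M))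

/-- a morphism `v` with `cM ≫ v = s` maps the closed point to `s (cpt K)` -/
theorem apply_clM {T : Scheme.{u}} {v : DM K M ⟶ T} {s : SK K ⟶ T} (hb : cM K M ≫ v = s) :
    v (clM K M) = s (cpt K) := by
  rw [← hb, ← cM_cpt]
  rfl

end Fermat.Agent.S26.Good
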