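/-
S26 / GOOD (architect helper169), leaf GOOD-5 (helper40).

Formal properties of `der v p a = (sh v h a).snd`, and: a tangent vector which kills generators of the
maximal ideal is trivial.
-/
import Fermat.Agent.S26.Good.Kap
import Fermat.Agent.S26.Good.MapM

set_option autoImplicit false

universe u

open CategoryTheory CategoryTheory.Limits AlgebraicGeometry

namespace Fermat.Agent.S26.Good

variable {K : Type u} [Field K]
variable {M : Type u} [AddCommGroup M] [Module K M] [Module Kᵐᵒᵖ M] [IsCentralScalar K M]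
variable {M' : Type u} [AddCommGroup M'] [Module K M'] [Module Kᵐᵒᵖ M'] [IsCentralScalar K M']
variable {X Y : Scheme.{u}}

theorem der_eq (v : DM K M ⟶ X) {p : X} (h : v (clM K M) = p) (a : X.presheaf.stalk p) :
    der v p a = (sh (R := CommRingCat.of (TrivSqZeroExt K M)) v h a).snd := by
  unfold der
  rw [dif_pos h]

theorem der_zero (v : DM K M ⟶ X) (p : X) : der v p 0 = 0 := by
  by_cases h : v (clM K M) = p
  · rw [der_eq v h, map_zero, TrivSqZeroExt.snd_zero]
  · unfold der
    rw [dif_neg h]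

theorem der_congr {v v' : DM K M ⟶ X} (e : v = v') (p : X) (a : X.presheaf.stalk p) :
    der v p a = der v' p a := by
  subst e
  rfl

theorem der_mapM (ℓ : M →ₗ[K] M') (v : DM K M ⟶ X) {p : X} (h : v (clM K M) = p)
    (a : X.presheaf.stalk p) : der (mapM ℓ ≫ v) p a = ℓ (der v p a) := by
  have h' : (mapM ℓ ≫ v) (clM K M') = p := by
    rw [Scheme.Hom.comp_apply, mapM_clM, h]
  rw [der_eq _ h', der_eq v h]
  have : IsLocalHom (CommRingCat.ofHom (TrivSqZeroExt.map ℓ).toRingHom).hom := by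
    rw [CommRingCat.hom_ofHom]
    exact isLocalHom_map ℓ
  have e := sh_Spec_map (R := CommRingCat.of (TrivSqZeroExt K M))
    (R' := CommRingCat.of (TrivSqZeroExt K M'))
    (CommRingCat.ofHom (TrivSqZeroExt.map ℓ).toRingHom) v h h'
  have e2 := congrArg (fun f => (f a).snd) e
  exact e2.trans (TrivSqZeroExt.snd_map ℓ _)

theorem der_comp_germ (v : DM K M ⟶ X) {p : X} (h : v (clM K M) = p) (φ : X ⟶ Y) {q : Y}
    (hq : φ p = q) (U : Y.Opens) (hU : q ∈ U) (hU' : p ∈ φ ⁻¹ᵁ U) (s : Γ(Y, U)) :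
    der (v ≫ φ) q (Y.presheaf.germ U q hU s) =
      der v p (X.presheaf.germ (φ ⁻¹ᵁ U) p hU' (φ.app U s)) := by
  have h' : (v ≫ φ) (clM K M) = q := by
    rw [Scheme.Hom.comp_apply, h, hq]
  rw [der_eq _ h', der_eq v h,
    sh_comp_germ (R := CommRingCat.of (TrivSqZeroExt K M)) v h φ h' U hU hU' s]

/-- `sh v h` maps the maximal ideal into `{x | x.fst = 0}` -/
theorem Der_fst_sh_mem (v : DM K M ⟶ X) {p : X} (h : v (clM K M) = p) (a : X.presheaf.stalk p)
    (ha : a ∈ IsLocalRing.maximalIdeal (X.presheaf.stalk p)) :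
    (sh (R := CommRingCat.of (TrivSqZeroExt K M)) v h a).fst = 0 := by
  by_contra hne
  have := isLocalHom_sh (R := CommRingCat.of (TrivSqZeroExt K M)) v h
  have hu : IsUnit (sh (R := CommRingCat.of (TrivSqZeroExt K M)) v h a) :=
    TrivSqZeroExt.isUnit_iff_isUnit_fst.2 (isUnit_iff_ne_zero.2 hne)
  exact ha (isUnit_of_map_unit _ a hu)

/-- a tangent vector which kills generators of the maximal ideal is trivial -/
theorem eq_of_der_eq_zero {T : Scheme.{u}} (t : T ⟶ SK K) (s : SK K ⟶ T) (hs : s ≫ t = 𝟙 _)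
    (v : DM K M ⟶ T) (hv : v ≫ t = dM K M) (hb : cM K M ≫ v = s)
    (S : Set (T.presheaf.stalk (s (cpt K))))
    (hS : Ideal.span S = IsLocalRing.maximalIdeal (T.presheaf.stalk (s (cpt K))))
    (h0 : ∀ a ∈ S, der v (s (cpt K)) a = 0) : v = dM K M ≫ s := by
  have h1 : v (clM K M) = s (cpt K) := apply_clM hb
  have h2 : (dM K M ≫ s) (clM K M) = s (cpt K) := by
    rw [Scheme.Hom.comp_apply, dM_clM]
  refine ext_of_sh (R := CommRingCat.of (TrivSqZeroExt K M)) h1 h2 ?_
  -- both kill the maximal ideal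
  have k1 : ∀ a ∈ IsLocalRing.maximalIdeal (T.presheaf.stalk (s (cpt K))),
      sh (R := CommRingCat.of (TrivSqZeroExt K M)) v h1 a = 0 := by
    have : Ideal.span S ≤ RingHom.ker (sh (R := CommRingCat.of (TrivSqZeroExt K M)) v h1) := by
      rw [Ideal.span_le]
      intro a ha
      rw [SetLike.mem_coe, RingHom.mem_ker]
      refine TrivSqZeroExt.ext ?_ ?_
      · rw [TrivSqZeroExt.fst_zero]
        exact Der_fst_sh_mem v h1 a (hS ▸ Ideal.subset_span ha)
      · rw [TrivSqZeroExt.snd_zero, ← der_eq v h1]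
        exact h0 a ha
    intro a ha
    exact RingHom.mem_ker.1 (this (hS.symm ▸ ha))
  have : IsLocalHom (CommRingCat.ofHom (TrivSqZeroExt.inlHom K M)).hom := by
    rw [CommRingCat.hom_ofHom]
    exact isLocalHom_inlHom
  have e0 : sh (R := CommRingCat.of (TrivSqZeroExt K M)) (dM K M ≫ s) h2
      = (TrivSqZeroExt.inlHom K M).comp (sh (R := CommRingCat.of K) s rfl) :=
    sh_Spec_map (R := CommRingCat.of K) (R' := CommRingCat.of (TrivSqZeroExt K M))
      (CommRingCat.ofHom (TrivSqZeroExt.inlHom K M)) s rfl h2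
  have k2 : ∀ a ∈ IsLocalRing.maximalIdeal (T.presheaf.stalk (s (cpt K))),
      sh (R := CommRingCat.of (TrivSqZeroExt K M)) (dM K M ≫ s) h2 a = 0 := by
    intro a ha
    rw [e0, RingHom.comp_apply]
    have : sh (R := CommRingCat.of K) s rfl a = 0 := by
      by_contra hne
      have := isLocalHom_sh (R := CommRingCat.of K) s rfl
      exact ha (isUnit_of_map_unit (sh (R := CommRingCat.of K) s rfl) a (isUnit_iff_ne_zero.2 hne))
    rw [this, map_zero]
  have c1 : ∀ c : K, sh (R := CommRingCat.of (TrivSqZeroExt K M)) v h1 (kap t (s (cpt K)) c)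
      = TrivSqZeroExt.inlHom K M c := fun c =>
    sh_kap t (R := CommRingCat.of (TrivSqZeroExt K M)) v h1
      (CommRingCat.ofHom (TrivSqZeroExt.inlHom K M)) hv c
  have c2 : ∀ c : K, sh (R := CommRingCat.of (TrivSqZeroExt K M)) (dM K M ≫ s) h2
      (kap t (s (cpt K)) c) = TrivSqZeroExt.inlHom K M c := fun c =>
    sh_kap t (R := CommRingCat.of (TrivSqZeroExt K M)) (dM K M ≫ s) h2
      (CommRingCat.ofHom (TrivSqZeroExt.inlHom K M))
      (by rw [Category.assoc, hs, Category.comp_id]; rfl) c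
  refine RingHom.ext fun a => ?_
  obtain ⟨c, hc⟩ := exists_kap_add t s hs a
  have d1 := k1 _ hc
  have d2 := k2 _ hc
  rw [map_sub, sub_eq_zero] at d1 d2
  rw [d1, d2, c1, c2]

end Fermat.Agent.S26.Good
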