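/-
S26 / GOOD (architect helper169): leaf GOOD-6.

**The group law of `A` induces the addition on tangent vectors** (Eckmann-Hilton, no product of stalks needed).
-/
import Fermat.Agent.S26.Good.Der

set_option autoImplicit false

universe u

open CategoryTheory CategoryTheory.Limits AlgebraicGeometry

namespace Fermat.Agent.S26.Good

variable {K : Type u} [Field K] {𝔸 : AbVar K}
variable {M : Type u} [AddCommGroup M] [Module K M] [Module Kᵐᵒᵖ M] [IsCentralScalar K M]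

theorem mem_Ker_iff (v : 𝔸.Pt (dM K M)) :
    v ∈ Ker 𝔸 M ↔ cM K M ≫ v.hom = (1 : 𝔸.KPt).hom := by
  rw [Ker, MonoidHom.mem_ker]
  constructor
  · intro h
    rw [← h, AbVar.Pt.comp_hom]
  · intro h
    exact AbVar.Pt.ext (by rw [AbVar.Pt.comp_hom, h])

theorem hom_clM {v : 𝔸.Pt (dM K M)} (hv : v ∈ Ker 𝔸 M) : v.hom (clM K M) = 𝔸.o :=
  apply_clM ((mem_Ker_iff v).1 hv)

section push

variable {M' : Type u} [AddCommGroup M'] [Module K M'] [Module Kᵐᵒᵖ M'] [IsCentralScalar K M']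
variable {M'' : Type u} [AddCommGroup M''] [Module K M''] [Module Kᵐᵒᵖ M''] [IsCentralScalar K M'']

/-- push-forward of tangent vectors along a linear map -/
noncomputable def Add_push (ℓ : M →ₗ[K] M') : 𝔸.Pt (dM K M) →* 𝔸.Pt (dM K M') :=
  AbVar.Pt.comp (mapM ℓ) (mapM_dM ℓ)

theorem Add_push_hom (ℓ : M →ₗ[K] M') (v : 𝔸.Pt (dM K M)) :
    (Add_push ℓ v).hom = mapM ℓ ≫ v.hom := rfl

theorem Add_push_push (ℓ : M →ₗ[K] M') (ℓ' : M' →ₗ[K] M'') (v : 𝔸.Pt (dM K M)) :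
    Add_push ℓ' (Add_push ℓ v) = Add_push (ℓ' ∘ₗ ℓ) v := by
  apply AbVar.Pt.ext
  rw [Add_push_hom, Add_push_hom, Add_push_hom, ← Category.assoc, mapM_comp]

theorem Add_push_id (v : 𝔸.Pt (dM K M)) : Add_push LinearMap.id v = v := by
  apply AbVar.Pt.ext
  rw [Add_push_hom, mapM_id, Category.id_comp]

theorem Add_push_zero {v : 𝔸.Pt (dM K M)} (hv : v ∈ Ker 𝔸 M) :
    Add_push (0 : M →ₗ[K] M') v = 1 := by
  have h1 : AbVar.Pt.comp (𝔸 := 𝔸) (dM K M') (Category.comp_id _) (1 : 𝔸.KPt) = 1 := map_one _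
  rw [← h1]
  apply AbVar.Pt.ext
  rw [Add_push_hom, AbVar.Pt.comp_hom, mapM_zero, Category.assoc, (mem_Ker_iff v).1 hv]

theorem Add_push_mem {v : 𝔸.Pt (dM K M)} (hv : v ∈ Ker 𝔸 M) (ℓ : M →ₗ[K] M') :
    Add_push ℓ v ∈ Ker 𝔸 M' := by
  rw [mem_Ker_iff, Add_push_hom, ← Category.assoc, cM_mapM]
  exact (mem_Ker_iff v).1 hv

theorem Add_der_push {v : 𝔸.Pt (dM K M)} (hv : v ∈ Ker 𝔸 M) (ℓ : M →ₗ[K] M')
    (a : 𝔸.A.presheaf.stalk 𝔸.o) :
    der (Add_push ℓ v).hom 𝔸.o a = ℓ (der v.hom 𝔸.o a) := by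
  rw [Add_push_hom]
  exact der_mapM ℓ v.hom (hom_clM hv) a

end push

theorem der_mul {v v' : 𝔸.Pt (dM K M)} (hv : v ∈ Ker 𝔸 M) (hv' : v' ∈ Ker 𝔸 M)
    (a : 𝔸.A.presheaf.stalk 𝔸.o) :
    der (v * v').hom 𝔸.o a = der v.hom 𝔸.o a + der v'.hom 𝔸.o a := by
  set w : 𝔸.Pt (dM K (M × M)) :=
    Add_push (LinearMap.inl K M M) v * Add_push (LinearMap.inr K M M) v' with hw
  have hwK : w ∈ Ker 𝔸 (M × M) :=
    (Ker 𝔸 (M × M)).mul_mem (Add_push_mem hv _) (Add_push_mem hv' _)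
  have key : ∀ ℓ : (M × M) →ₗ[K] M, Add_push ℓ w =
      Add_push (ℓ ∘ₗ LinearMap.inl K M M) v * Add_push (ℓ ∘ₗ LinearMap.inr K M M) v' := by
    intro ℓ
    rw [hw, map_mul, Add_push_push, Add_push_push]
  have h1 : Add_push (LinearMap.fst K M M) w = v := by
    rw [key, LinearMap.fst_comp_inl, LinearMap.fst_comp_inr, Add_push_id, Add_push_zero hv',
      mul_one]
  have h2 : Add_push (LinearMap.snd K M M) w = v' := by
    rw [key, LinearMap.snd_comp_inl, LinearMap.snd_comp_inr, Add_push_id, Add_push_zero hv,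
      one_mul]
  have h3 : Add_push (LinearMap.fst K M M + LinearMap.snd K M M) w = v * v' := by
    rw [key, LinearMap.add_comp, LinearMap.add_comp, LinearMap.fst_comp_inl,
      LinearMap.fst_comp_inr, LinearMap.snd_comp_inl, LinearMap.snd_comp_inr, add_zero, zero_add,
      Add_push_id, Add_push_id]
  have e1 := Add_der_push hwK (LinearMap.fst K M M) a
  have e2 := Add_der_push hwK (LinearMap.snd K M M) a
  have e3 := Add_der_push hwK (LinearMap.fst K M M + LinearMap.snd K M M) a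
  rw [h1] at e1
  rw [h2] at e2
  rw [h3] at e3
  rw [e1, e2, e3, LinearMap.add_apply]

theorem der_one (a : 𝔸.A.presheaf.stalk 𝔸.o) : der (1 : 𝔸.Pt (dM K M)).hom 𝔸.o a = 0 := by
  have h := der_mul (Ker 𝔸 M).one_mem (Ker 𝔸 M).one_mem a
  rw [mul_one] at h
  exact left_eq_add.mp h

theorem Add_der_inv {v : 𝔸.Pt (dM K M)} (hv : v ∈ Ker 𝔸 M) (a : 𝔸.A.presheaf.stalk 𝔸.o) :
    der (v⁻¹).hom 𝔸.o a = - der v.hom 𝔸.o a := by
  have h := der_mul hv ((Ker 𝔸 M).inv_mem hv) a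
  rw [mul_inv_cancel, der_one] at h
  exact (neg_eq_of_add_eq_zero_right h.symm).symm

theorem der_zpow {v : 𝔸.Pt (dM K M)} (hv : v ∈ Ker 𝔸 M) (m : ℤ) (a : 𝔸.A.presheaf.stalk 𝔸.o) :
    der (v ^ m).hom 𝔸.o a = m • der v.hom 𝔸.o a := by
  induction m using Int.induction_on with
  | zero => rw [zpow_zero, der_one, zero_smul]
  | succ n ih =>
    rw [zpow_add_one, der_mul ((Ker 𝔸 M).zpow_mem hv _) hv, ih, add_smul, one_smul]
  | pred n ih =>
    rw [zpow_sub_one, der_mul ((Ker 𝔸 M).zpow_mem hv _) ((Ker 𝔸 M).inv_mem hv), ih,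
      Add_der_inv hv, sub_smul, one_smul, sub_eq_add_neg]

end Fermat.Agent.S26.Good
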