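/-
S26 / GOOD (architect helper169), leaf GOOD-11 (helper276).
The based scheme `C.cons m B = (Γ × W, (x, w) ↦ m ι(x) + τ(w))`: base point, smoothness, tangent map.
-/
import Fermat.Agent.S26.Good.Add

set_option autoImplicit false

universe u

open CategoryTheory CategoryTheory.Limits AlgebraicGeometry

namespace Fermat.Agent.S26.Good

variable {K : Type u} [Field K] {𝔸 : AbVar K}

theorem Pt_comp_comp {T T' T'' : Scheme.{u}} {t : T ⟶ SK K} {t' : T' ⟶ SK K} {t'' : T'' ⟶ SK K}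
    (ψ : T' ⟶ T) (hψ : ψ ≫ t = t') (ψ' : T'' ⟶ T') (hψ' : ψ' ≫ t' = t'') (x : 𝔸.Pt t) :
    AbVar.Pt.comp ψ' hψ' (AbVar.Pt.comp ψ hψ x) =
      AbVar.Pt.comp (ψ' ≫ ψ) (by rw [Category.assoc, hψ, hψ']) x := by
  apply AbVar.Pt.ext
  rw [AbVar.Pt.comp_hom, AbVar.Pt.comp_hom, AbVar.Pt.comp_hom, Category.assoc]

theorem Cons_comp_congr {T T' : Scheme.{u}} {t : T ⟶ SK K} {t' : T' ⟶ SK K} {ψ ψ' : T' ⟶ T}
    (h : ψ = ψ') (hψ : ψ ≫ t = t') (hψ' : ψ' ≫ t = t') (x : 𝔸.Pt t) :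
    AbVar.Pt.comp ψ hψ x = AbVar.Pt.comp ψ' hψ' x := by
  subst h
  rfl

theorem Cons_τ (C : Curve 𝔸) (m : ℤ) (B : Based 𝔸) :
    (C.cons m B).τ = (AbVar.Pt.comp (pullback.fst C.c B.w) rfl C.ι) ^ m *
      AbVar.Pt.comp (pullback.snd C.c B.w) pullback.condition.symm B.τ := rfl

theorem Cons_comp_τ_aux (C : Curve 𝔸) (m : ℤ) (B : Based 𝔸) {T : Scheme.{u}} {t : T ⟶ SK K}
    (v : T ⟶ pullback C.c B.w) (hv : v ≫ pullback.fst C.c B.w ≫ C.c = t)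
    (h₁ : (v ≫ pullback.fst C.c B.w) ≫ C.c = t) (h₂ : (v ≫ pullback.snd C.c B.w) ≫ B.w = t) :
    AbVar.Pt.comp v hv ((AbVar.Pt.comp (pullback.fst C.c B.w) rfl C.ι) ^ m *
      AbVar.Pt.comp (pullback.snd C.c B.w) pullback.condition.symm B.τ) =
      (AbVar.Pt.comp (v ≫ pullback.fst C.c B.w) h₁ C.ι) ^ m *
        AbVar.Pt.comp (v ≫ pullback.snd C.c B.w) h₂ B.τ := by
  rw [map_mul, map_zpow, Pt_comp_comp, Pt_comp_comp]

/-- pull-back of the universal point of `C.cons m B` -/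
theorem Cons_comp_τ (C : Curve 𝔸) (m : ℤ) (B : Based 𝔸) {T : Scheme.{u}} {t : T ⟶ SK K}
    (v : T ⟶ (C.cons m B).W) (hv : v ≫ (C.cons m B).w = t)
    (h₁ : (v ≫ pullback.fst C.c B.w) ≫ C.c = t) (h₂ : (v ≫ pullback.snd C.c B.w) ≫ B.w = t) :
    AbVar.Pt.comp v hv (C.cons m B).τ =
      (AbVar.Pt.comp (v ≫ pullback.fst C.c B.w) h₁ C.ι) ^ m *
        AbVar.Pt.comp (v ≫ pullback.snd C.c B.w) h₂ B.τ :=
  Cons_comp_τ_aux C m B v hv h₁ h₂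

theorem Cons_snd_w (C : Curve 𝔸) (B : Based 𝔸) {T : Scheme.{u}} (v : T ⟶ pullback C.c B.w) :
    (v ≫ pullback.snd C.c B.w) ≫ B.w = v ≫ pullback.fst C.c B.w ≫ C.c := by
  rw [Category.assoc, pullback.condition]

theorem Cons_fst_c (C : Curve 𝔸) (B : Based 𝔸) {T : Scheme.{u}} (v : T ⟶ pullback C.c B.w) :
    (v ≫ pullback.fst C.c B.w) ≫ C.c = v ≫ pullback.fst C.c B.w ≫ C.c := by
  rw [Category.assoc]

theorem cons_base (C : Curve 𝔸) (m : ℤ) (B : Based 𝔸)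
    (hB : AbVar.Pt.comp B.pt.1 B.pt.2 B.τ = 1) :
    AbVar.Pt.comp (C.cons m B).pt.1 (C.cons m B).pt.2 (C.cons m B).τ = 1 := by
  have e₁ : (C.cons m B).pt.1 ≫ pullback.fst C.c B.w = C.ε.1 := pullback.lift_fst _ _ _
  have e₂ : (C.cons m B).pt.1 ≫ pullback.snd C.c B.w = B.pt.1 := pullback.lift_snd _ _ _
  rw [Cons_comp_τ C m B _ _ (by rw [e₁, C.ε.2]) (by rw [e₂, B.pt.2]),
    Cons_comp_congr e₁ _ C.ε.2, Cons_comp_congr e₂ _ B.pt.2, C.ι_ε, hB, one_zpow, one_mul]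

theorem cons_smooth (C : Curve 𝔸) (m : ℤ) (B : Based 𝔸) (n : ℕ)
    (h : SmoothOfRelativeDimension n B.w) : SmoothOfRelativeDimension (n + 1) (C.cons m B).w := by
  have h1 : SmoothOfRelativeDimension n (pullback.fst C.c B.w) :=
    haveI := smoothOfRelativeDimension_isStableUnderBaseChange n
    MorphismProperty.pullback_fst (P := @SmoothOfRelativeDimension n) C.c B.w h
  exact smoothOfRelativeDimension_comp n 1 (pullback.fst C.c B.w) C.c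

theorem der_cons (C : Curve 𝔸) (m : ℤ) (B : Based 𝔸) (hB : AbVar.Pt.comp B.pt.1 B.pt.2 B.τ = 1)
    (v : DM K K ⟶ (C.cons m B).W) (hv : v ≫ (C.cons m B).w = dM K K)
    (hb : cM K K ≫ v = (C.cons m B).pt.1) (a : 𝔸.A.presheaf.stalk 𝔸.o) :
    der (v ≫ (C.cons m B).τ.hom) 𝔸.o a =
      m • der ((v ≫ pullback.fst C.c B.w) ≫ C.ι.hom) 𝔸.o a +
        der ((v ≫ pullback.snd C.c B.w) ≫ B.τ.hom) 𝔸.o a := by
  have e₁ : (C.cons m B).pt.1 ≫ pullback.fst C.c B.w = C.ε.1 := pullback.lift_fst _ _ _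
  have e₂ : (C.cons m B).pt.1 ≫ pullback.snd C.c B.w = B.pt.1 := pullback.lift_snd _ _ _
  have h₁ : (v ≫ pullback.fst C.c B.w) ≫ C.c = dM K K := (Cons_fst_c C B v).trans hv
  have h₂ : (v ≫ pullback.snd C.c B.w) ≫ B.w = dM K K := (Cons_snd_w C B v).trans hv
  have k₁ : AbVar.Pt.comp (v ≫ pullback.fst C.c B.w) h₁ C.ι ∈ Ker 𝔸 K := by
    rw [mem_Ker_iff, AbVar.Pt.comp_hom, ← C.ι_ε, AbVar.Pt.comp_hom, ← e₁, ← hb]
    simp only [Category.assoc]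
  have k₂ : AbVar.Pt.comp (v ≫ pullback.snd C.c B.w) h₂ B.τ ∈ Ker 𝔸 K := by
    rw [mem_Ker_iff, AbVar.Pt.comp_hom, ← hB, AbVar.Pt.comp_hom, ← e₂, ← hb]
    simp only [Category.assoc]
  have e : v ≫ (C.cons m B).τ.hom =
      ((AbVar.Pt.comp (v ≫ pullback.fst C.c B.w) h₁ C.ι) ^ m *
        AbVar.Pt.comp (v ≫ pullback.snd C.c B.w) h₂ B.τ).hom := by
    rw [← Cons_comp_τ C m B v hv h₁ h₂, AbVar.Pt.comp_hom]
  rw [e, der_mul (Subgroup.zpow_mem _ k₁ m) k₂, der_zpow k₁, AbVar.Pt.comp_hom, AbVar.Pt.comp_hom]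

end Fermat.Agent.S26.Good
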