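/-
S26 / GOOD (architect helper169), leaf GOOD-12 (proof helper292).

Tangent vectors of the curves of a `CurveSystem`.
-/
import Fermat.Agent.S26.Good.Der

set_option autoImplicit false

universe u

open CategoryTheory CategoryTheory.Limits AlgebraicGeometry

namespace Fermat.Agent.S26.Good

variable {K : Type u} [Field K] {𝔸 : AbVar K} {g : ℕ}

/-- the marked point of a curve is mapped to the origin -/
theorem CurveDer_ι_x₀ (C : Curve 𝔸) : C.ι.hom C.x₀ = 𝔸.o := by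
  have h := congrArg (fun z : 𝔸.KPt => z.hom (cpt K)) C.ι_ε
  simp only [AbVar.Pt.comp_hom, Scheme.Hom.comp_apply] at h
  exact h

theorem CurveDer_key (S : CurveSystem 𝔸 g) (i j : Fin g) (v : DM K K ⟶ (S.C i).Γ)
    (hb : cM K K ≫ v = (S.C i).ε.1) :
    der (v ≫ (S.C i).ι.hom) 𝔸.o (tg S j) =
      der v (S.C i).x₀ ((S.C i).Γ.presheaf.germ ((S.C i).ι.hom ⁻¹ᵁ S.U) (S.C i).x₀ (S.hx i)
        ((S.C i).ι.hom.app S.U (S.t j))) :=
  der_comp_germ v (apply_clM hb) (S.C i).ι.hom (CurveDer_ι_x₀ (S.C i)) S.U S.hU (S.hx i) (S.t j)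

theorem der_curve_off (S : CurveSystem 𝔸 g) (i j : Fin g) (hij : j ≠ i) (v : DM K K ⟶ (S.C i).Γ)
    (hb : cM K K ≫ v = (S.C i).ε.1) : der (v ≫ (S.C i).ι.hom) 𝔸.o (tg S j) = 0 := by
  rw [CurveDer_key S i j v hb, S.off i j hij, der_zero]

theorem eq_of_der_curve_diag (S : CurveSystem 𝔸 g) (i : Fin g) (v : DM K K ⟶ (S.C i).Γ)
    (hv : v ≫ (S.C i).c = dM K K) (hb : cM K K ≫ v = (S.C i).ε.1)
    (h : der (v ≫ (S.C i).ι.hom) 𝔸.o (tg S i) = 0) : v = dM K K ≫ (S.C i).ε.1 := by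
  rw [CurveDer_key S i i v hb] at h
  refine eq_of_der_eq_zero (S.C i).c (S.C i).ε.1 (S.C i).ε.2 v hv hb _ (S.diag i) ?_
  intro a ha
  have ha' : a = (S.C i).Γ.presheaf.germ ((S.C i).ι.hom ⁻¹ᵁ S.U) (S.C i).x₀ (S.hx i)
      ((S.C i).ι.hom.app S.U (S.t i)) := ha
  rw [ha']
  exact h

end Fermat.Agent.S26.Good
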