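/-
S26 / GOOD (architect helper169), leaf GOOD-10 (proof helper292, shadow).  Mathlib + `EtaleAt` only.

Formally etale stalk map + locally of finite presentation `⇒` etale in a neighbourhood.
-/
import Fermat.Agent.S26.Defs

set_option autoImplicit false

universe u

open CategoryTheory CategoryTheory.Limits AlgebraicGeometry

namespace Fermat.Agent.S26.Good

theorem EtcOpen_respectsIso : RingHom.RespectsIso @RingHom.FormallyEtale := by
  refine RingHom.StableUnderComposition.respectsIso
    (fun _ _ _ _ _ _ _ _ hf hg => hf.comp hg) fun {R S} _ _ e => ?_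
  algebraize [e.toRingHom]
  have : IsLocalization.Away (1 : R) S :=
    IsLocalization.away_of_isUnit_of_bijective S isUnit_one e.bijective
  exact Algebra.FormallyEtale.of_isLocalization (Submonoid.powers (1 : R))

theorem EtcOpen_stalkMap_iff {X Y : Scheme.{u}} {f : X ⟶ Y} {x : X} (U : Y.Opens)
      (hU : IsAffineOpen U) (V : X.Opens) (hV : IsAffineOpen V) (hVU : V ≤ f ⁻¹ᵁ U)
      (hx : x ∈ V) :
    letI := (f.appLE U V hVU).hom.toAlgebra
    (f.stalkMap x).hom.FormallyEtale ↔
      hV.primeIdealOf ⟨x, hx⟩ ∈ Algebra.etaleLocus Γ(Y, U) Γ(X, V) := by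
  let := (f.appLE U V hVU).hom.toAlgebra
  let p := (hU.primeIdealOf ⟨f x, hVU hx⟩).asIdeal
  let q := (hV.primeIdealOf ⟨x, hx⟩).asIdeal
  have : q.LiesOver p :=
    ⟨congr($(IsAffineOpen.comap_primeIdealOf_appLE U hU V hV hVU hx).1).symm⟩
  let := Localization.AtPrime.algebraOfLiesOver p q
  trans Algebra.FormallyEtale (Localization.AtPrime p) (Localization.AtPrime q)
  · rw [← RingHom.formallyEtale_algebraMap]
    exact EtcOpen_respectsIso.arrow_mk_iso_iff
      (IsAffineOpen.arrowStalkMapIso f U hU V hV hVU hx)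
  · exact Algebra.FormallyEtale.iff_restrictScalars.symm

set_option backward.defeqAttrib.useBackward true in
set_option backward.isDefEq.respectTransparency false in
theorem EtcOpen_exists_etale {X Y : Scheme.{u}}
    (f : X ⟶ Y) [LocallyOfFinitePresentation f]
    (x : X) (H : (f.stalkMap x).hom.FormallyEtale) :
    ∃ (U : Y.Opens) (_ : IsAffineOpen U) (V : X.Opens) (_ : IsAffineOpen V) (hVU : V ≤ f ⁻¹ᵁ U),
      x ∈ V ∧ (f.appLE U V hVU).hom.Etale := by
  obtain ⟨_, ⟨U, hU, rfl⟩, hxU, -⟩ :=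
    Y.isBasis_affineOpens.exists_subset_of_mem_open (Set.mem_univ (f x)) isOpen_univ
  obtain ⟨_, ⟨V, hV, rfl⟩, hxV, hVU⟩ :=
    X.isBasis_affineOpens.exists_subset_of_mem_open hxU (U.2.preimage f.continuous)
  have := f.finitePresentation_appLE hU hV hVU
  algebraize [(f.appLE U V hVU).hom]
  have : Algebra.IsEtaleAt _ _ := (EtcOpen_stalkMap_iff U hU V hV hVU hxV).mp H
  obtain ⟨r, hrx, hr⟩ := Algebra.exists_etale_of_isEtaleAt (R := Γ(Y, U))
    (hV.primeIdealOf ⟨x, hxV⟩).asIdeal
  refine ⟨_, hU, _, hV.basicOpen r, (X.basicOpen_le r).trans hVU, ?_, ?_⟩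
  · rwa [← PrimeSpectrum.mem_basicOpen, IsAffineOpen.primeIdealOf,
      ← hV.fromSpec_preimage_basicOpen, Scheme.Hom.mem_preimage, ← Scheme.Hom.comp_apply,
      IsAffineOpen.isoSpec_hom, IsAffineOpen.toSpecΓ_fromSpec] at hrx
  · have := hV.isLocalization_basicOpen r
    rw [← RingHom.etale_algebraMap] at hr
    convert!
      RingHom.Etale.propertyIsLocal.respectsIso.1 _
        (IsLocalization.algEquiv (.powers r) _ Γ(X, X.basicOpen r)).toRingEquiv hr
    ext
    dsimp
    simp only [IsScalarTower.algebraMap_apply Γ(Y, U) Γ(X, V) (Localization _),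
      IsLocalization.map_eq]
    simp only [RingHom.algebraMap_toAlgebra, RingHomCompTriple.comp_apply, ← ConcreteCategory.comp_apply,
      Scheme.Hom.appLE_map]

set_option backward.isDefEq.respectTransparency.types false in
theorem etaleAt_of_formallyEtale_stalkMap {X Y : Scheme.{u}} (φ : Y ⟶ X)
    [LocallyOfFinitePresentation φ] (p : Y) (H : (φ.stalkMap p).hom.FormallyEtale) :
    EtaleAt φ p := by
  obtain ⟨U, hU, V, hV, hVU, hxV, H⟩ := EtcOpen_exists_etale φ p H
  refine ⟨V, hxV, ?_⟩
  have : IsAffine _ := hU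
  have : IsAffine _ := hV
  have h1 : Etale (φ.resLE U V hVU) := by
    rw [HasRingHomProperty.iff_of_isAffine (P := @Etale)]
    exact (RingHom.Etale.propertyIsLocal.respectsIso.arrow_mk_iso_iff
      (arrowResLEAppIso φ U V hVU)).mpr H
  have e : V.ι ≫ φ = φ.resLE U V hVU ≫ U.ι := (Scheme.Hom.resLE_comp_ι φ hVU).symm
  rw [e]
  infer_instance

end Fermat.Agent.S26.Good
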