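/-
S26 / GOOD (architect helper169), leaf GOOD-8 (helper258): compatible standard smooth charts.
-/
import Fermat.Agent.S26.Good.Defs

set_option autoImplicit false

universe u

open CategoryTheory CategoryTheory.Limits AlgebraicGeometry

namespace Fermat.Agent.S26.Good

variable {K : Type u} [Field K]

theorem exists_charts {X Y : Scheme.{u}} (x : X ⟶ SK K) (y : Y ⟶ SK K) (n : ℕ)
    [SmoothOfRelativeDimension n x] [SmoothOfRelativeDimension n y] (φ : Y ⟶ X) (p : Y) :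
    ∃ (V : X.Opens) (_ : IsAffineOpen V) (V' : Y.Opens) (_ : IsAffineOpen V') (_ : p ∈ V')
      (_ : V' ≤ φ ⁻¹ᵁ V),
      (x.appLE ⊤ V le_top).hom.IsStandardSmoothOfRelativeDimension n ∧
      (y.appLE ⊤ V' le_top).hom.IsStandardSmoothOfRelativeDimension n := by
  obtain ⟨U₁, hU₁, V, hV, hxV, e₁, h₁⟩ :=
    SmoothOfRelativeDimension.exists_isStandardSmoothOfRelativeDimension (n := n) (f := x) (φ p)
  obtain ⟨U₂, hU₂, V₀, hV₀, hpV₀, e₂, h₂⟩ :=
    SmoothOfRelativeDimension.exists_isStandardSmoothOfRelativeDimension (n := n) (f := y) p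
  have hsub : Subsingleton (SK K) := inferInstanceAs (Subsingleton (PrimeSpectrum K))
  have htop : ∀ (U : (SK K).Opens) (z : SK K), z ∈ U → U = ⊤ := by
    intro U z hz
    rw [eq_top_iff]
    intro w _
    rwa [Subsingleton.elim w z]
  obtain rfl := htop U₁ (x (φ p)) (e₁ hxV)
  obtain rfl := htop U₂ (y p) (e₂ hpV₀)
  obtain ⟨f, hf, hpf⟩ := hV₀.exists_basicOpen_le (V := φ ⁻¹ᵁ V) ⟨p, hxV⟩ hpV₀
  refine ⟨V, hV, Y.basicOpen f, hV₀.basicOpen f, hpf, hf, h₁, ?_⟩
  have heq : y.appLE ⊤ (Y.basicOpen f) le_top = y.appLE ⊤ V₀ e₂ ≫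
      CommRingCat.ofHom (algebraMap Γ(Y, V₀) Γ(Y, Y.basicOpen f)) := by
    rw [RingHom.algebraMap_toAlgebra, CommRingCat.ofHom_hom, Scheme.Hom.appLE_map]
  rw [heq]
  have : IsLocalization.Away f Γ(Y, Y.basicOpen f) := hV₀.isLocalization_basicOpen f
  exact (RingHom.isStandardSmoothOfRelativeDimension_stableUnderCompositionWithLocalizationAway
    n).right _ f _ h₂

end Fermat.Agent.S26.Good
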