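/-
S26 / GOOD, leaf GOOD-9.

Between smooth `K`-schemes of the same relative dimension: stalk map formally unramified `⇒` formally etale.
-/
import Fermat.Agent.S26.Good.EtcChart
import Fermat.Agent.S26.Etc.Alg

set_option autoImplicit false

universe u

open CategoryTheory CategoryTheory.Limits AlgebraicGeometry

namespace Fermat.Agent.S26.Good

variable {K : Type u} [Field K]

/-- the unramified analogue of `AlgebraicGeometry.formallySmooth_stalkMap_iff` (one direction). -/
theorem EtcStalk_isUnramifiedAt {X Y : Scheme.{u}} {f : X ⟶ Y} {x : X} (U : Y.Opens)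
    (hU : IsAffineOpen U) (V : X.Opens) (hV : IsAffineOpen V) (hVU : V ≤ f ⁻¹ᵁ U)
    (hx : x ∈ V) (H : (f.stalkMap x).hom.FormallyUnramified) :
    letI := (f.appLE U V hVU).hom.toAlgebra
    Algebra.IsUnramifiedAt Γ(Y, U) (hV.primeIdealOf ⟨x, hx⟩).asIdeal := by
  let := (f.appLE U V hVU).hom.toAlgebra
  let p := (hU.primeIdealOf ⟨f x, hVU hx⟩).asIdeal
  let q := (hV.primeIdealOf ⟨x, hx⟩).asIdeal
  have : q.LiesOver p :=
    ⟨congr($(IsAffineOpen.comap_primeIdealOf_appLE U hU V hV hVU hx).1).symm⟩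
  let := Localization.AtPrime.algebraOfLiesOver p q
  have h1 : Algebra.FormallyUnramified (Localization.AtPrime p) (Localization.AtPrime q) := by
    rw [← RingHom.formallyUnramified_algebraMap]
    exact (RingHom.FormallyUnramified.respectsIso.arrow_mk_iso_iff
      (IsAffineOpen.arrowStalkMapIso f U hU V hV hVU hx)).mp H
  have h2 : Algebra.FormallyUnramified Γ(Y, U) (Localization.AtPrime p) :=
    Algebra.FormallyUnramified.of_isLocalization p.primeCompl
  exact Algebra.FormallyUnramified.comp Γ(Y, U) (Localization.AtPrime p) (Localization.AtPrime q)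

theorem formallyEtale_stalkMap_of_formallyUnramified {X Y : Scheme.{u}} (x : X ⟶ SK K)
    (y : Y ⟶ SK K) (n : ℕ) [SmoothOfRelativeDimension n x] [SmoothOfRelativeDimension n y]
    (φ : Y ⟶ X) (hφ : φ ≫ x = y) (p : Y) (H : (φ.stalkMap p).hom.FormallyUnramified) :
    (φ.stalkMap p).hom.FormallyEtale := by
  obtain ⟨V, hV, V', hV', hp, hle, hx, hy⟩ := exists_charts x y n φ p
  have hcomp : (φ.appLE V V' hle).hom.comp (x.appLE ⊤ V le_top).hom =
      (y.appLE ⊤ V' le_top).hom := by
    rw [← CommRingCat.hom_comp, Scheme.Hom.appLE_comp_appLE]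
    subst hφ
    rfl
  algebraize [(x.appLE ⊤ V le_top).hom, (y.appLE ⊤ V' le_top).hom, (φ.appLE V V' hle).hom]
  have : IsScalarTower Γ(SK K, ⊤) Γ(X, V) Γ(Y, V') :=
    IsScalarTower.of_algebraMap_eq' hcomp.symm
  have hun : Algebra.IsUnramifiedAt Γ(X, V) (hV'.primeIdealOf ⟨p, hp⟩).asIdeal :=
    EtcStalk_isUnramifiedAt V hV V' hV' hle hp H
  have het : Algebra.IsEtaleAt Γ(X, V) (hV'.primeIdealOf ⟨p, hp⟩).asIdeal :=
    Etc.isEtaleAt_of_isUnramifiedAt Γ(SK K, ⊤) Γ(X, V) Γ(Y, V') n _
  have hsm : (φ.stalkMap p).hom.FormallySmooth := by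
    rw [formallySmooth_stalkMap_iff V hV V' hV' hle hp]
    exact (inferInstance : Algebra.FormallySmooth Γ(X, V)
      (Localization.AtPrime (hV'.primeIdealOf ⟨p, hp⟩).asIdeal))
  algebraize [(φ.stalkMap p).hom]
  exact Algebra.FormallyEtale.of_formallyUnramified_and_formallySmooth

end Fermat.Agent.S26.Good
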