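/-
S26 / GOOD (architect helper169), leaf GOOD-1.  MATHLIB ONLY.

`O → O'` essentially of finite type, `O'` local, `ρ : O' → k` onto a field.  If the only lift
`θ : O' → k[ε]` of `ρ` which is trivial on `O` is the trivial one, then `O'` is formally unramified over `O`.
-/
import Mathlib

set_option autoImplicit false

namespace Fermat.Agent.S26.Good

open TensorProduct

theorem formallyUnramified_of_dualNumber {O O' k : Type*} [CommRing O] [CommRing O']
    [IsLocalRing O'] [Field k] [Algebra O O'] [Algebra.EssFiniteType O O'] (ρ : O' →+* k)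
    (hρ : Function.Surjective ρ)
    (H : ∀ θ : O' →+* TrivSqZeroExt k k, (∀ a, (θ a).fst = ρ a) →
      (∀ c : O, (θ (algebraMap O O' c)).snd = 0) → ∀ a, (θ a).snd = 0) :
    Algebra.FormallyUnramified O O' := by
  have hker : RingHom.ker ρ = IsLocalRing.maximalIdeal O' :=
    IsLocalRing.eq_maximalIdeal (RingHom.ker_isMaximal_of_surjective ρ hρ)
  have hloc : IsLocalHom ρ := by
    refine ⟨fun a ha => ?_⟩
    by_contra hna
    have h1 : a ∈ IsLocalRing.maximalIdeal O' := (IsLocalRing.mem_maximalIdeal a).2 hna
    rw [← hker, RingHom.mem_ker] at h1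
    rw [h1] at ha
    exact not_isUnit_zero ha
  let e : IsLocalRing.ResidueField O' →+* k := IsLocalRing.ResidueField.lift ρ
  have he : ∀ a, e (IsLocalRing.residue O' a) = ρ a :=
    fun a => IsLocalRing.ResidueField.lift_residue_apply ρ a
  have key : ∀ (a : O') (x : Ω[O'⁄O]),
      (1 : IsLocalRing.ResidueField O') ⊗ₜ[O'] (a • x) =
        IsLocalRing.residue O' a • ((1 : IsLocalRing.ResidueField O') ⊗ₜ[O'] x) := by
    intro a x
    rw [← TensorProduct.smul_tmul, TensorProduct.smul_tmul', Algebra.smul_def, smul_eq_mul]
    rfl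
  have hsub : Subsingleton (IsLocalRing.ResidueField O' ⊗[O'] Ω[O'⁄O]) := by
    refine ⟨fun t t' => ?_⟩
    suffices h : ∀ t : IsLocalRing.ResidueField O' ⊗[O'] Ω[O'⁄O], t = 0 by rw [h t, h t']
    intro t
    rw [← Module.forall_dual_apply_eq_zero_iff (IsLocalRing.ResidueField O') t]
    intro φ
    let ψ : Ω[O'⁄O] → k := fun x => e (φ ((1 : IsLocalRing.ResidueField O') ⊗ₜ[O'] x))
    have ψ0 : ψ 0 = 0 := by
      show e (φ (1 ⊗ₜ[O'] 0)) = 0
      rw [TensorProduct.tmul_zero, map_zero, map_zero]
    have ψadd : ∀ x y, ψ (x + y) = ψ x + ψ y := by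
      intro x y
      show e (φ (1 ⊗ₜ[O'] (x + y))) = _
      rw [TensorProduct.tmul_add, map_add, map_add]
    have ψsmul : ∀ (a : O') x, ψ (a • x) = ρ a * ψ x := by
      intro a x
      show e (φ (1 ⊗ₜ[O'] (a • x))) = _
      rw [key, map_smul, smul_eq_mul, map_mul, he]
    let θ : O' →+* TrivSqZeroExt k k :=
      { toFun := fun a => TrivSqZeroExt.inl (ρ a) +
          TrivSqZeroExt.inr (ψ (KaehlerDifferential.D O O' a))
        map_one' := by
          rw [Derivation.map_one_eq_zero, ψ0, map_one]
          simp
        map_mul' := by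
          intro a b
          rw [Derivation.leibniz, ψadd, ψsmul, ψsmul]
          apply TrivSqZeroExt.ext
          · simp
          · simp
            ring
        map_zero' := by
          rw [map_zero, map_zero, ψ0]
          simp
        map_add' := by
          intro a b
          rw [map_add, map_add, ψadd]
          apply TrivSqZeroExt.ext
          · simp
          · simp }
    have hθ := H θ (fun a => by simp [θ]) (fun c => by
      show (TrivSqZeroExt.inl (ρ (algebraMap O O' c)) +
          TrivSqZeroExt.inr (ψ (KaehlerDifferential.D O O' (algebraMap O O' c)))).snd = 0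
      rw [Derivation.map_algebraMap, ψ0]
      simp)
    have hD : ∀ a, ψ (KaehlerDifferential.D O O' a) = 0 := by
      intro a
      have := hθ a
      simpa [θ] using this
    have hψ : ∀ x, ψ x = 0 := by
      intro x
      have hx : x ∈ Submodule.span O' (Set.range (KaehlerDifferential.D O O')) := by
        rw [KaehlerDifferential.span_range_derivation]
        exact Submodule.mem_top
      induction hx using Submodule.span_induction with
      | mem y hy =>
        obtain ⟨a, rfl⟩ := hy
        exact hD a
      | zero => exact ψ0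
      | add y z _ _ hy hz => rw [ψadd, hy, hz, add_zero]
      | smul a y _ hy => rw [ψsmul, hy, mul_zero]
    have hφ : ∀ x, φ ((1 : IsLocalRing.ResidueField O') ⊗ₜ[O'] x) = 0 := by
      intro x
      exact (map_eq_zero e).1 (hψ x)
    induction t using TensorProduct.induction_on with
    | zero => exact map_zero φ
    | tmul c x =>
      have h1 : c ⊗ₜ[O'] x = c • ((1 : IsLocalRing.ResidueField O') ⊗ₜ[O'] x) := by
        rw [TensorProduct.smul_tmul', smul_eq_mul, mul_one]
      rw [h1, map_smul, hφ, smul_zero]
    | add y z hy hz => rw [map_add, hy, hz, add_zero]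
  exact ⟨(IsLocalRing.subsingleton_tensorProduct (R := O') (M := Ω[O'⁄O])).1 hsub⟩

end Fermat.Agent.S26.Good
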