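/-
S26 / GOOD (architect helper169, proof helper189), leaf GOOD-7.

Injectivity of the tangent map at a rational point `⇒` the stalk map is formally unramified.
-/
import Fermat.Agent.S26.Good.AlgU
import Fermat.Agent.S26.Good.Der

set_option autoImplicit false

universe u

open CategoryTheory CategoryTheory.Limits AlgebraicGeometry

namespace Fermat.Agent.S26.Good

variable {K : Type u} [Field K]

theorem formallyUnramified_stalkMap_of_tanInj {X Y : Scheme.{u}} (x : X ⟶ SK K) (y : Y ⟶ SK K)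
    (φ : Y ⟶ X) (hφ : φ ≫ x = y) [LocallyOfFiniteType φ] (s : SK K ⟶ Y) (hs : s ≫ y = 𝟙 _)
    (H : TanInj y s φ) : (φ.stalkMap (s (cpt K))).hom.FormallyUnramified := by
  set p : Y := s (cpt K) with hp
  algebraize [(φ.stalkMap p).hom]
  have hess : Algebra.EssFiniteType (X.presheaf.stalk (φ p)) (Y.presheaf.stalk p) := by
    rw [← RingHom.essFiniteType_algebraMap, RingHom.algebraMap_toAlgebra]
    exact LocallyOfFiniteType.stalkMap φ p
  rw [← RingHom.algebraMap_toAlgebra (φ.stalkMap p).hom, RingHom.formallyUnramified_algebraMap]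
  let ρ : Y.presheaf.stalk p →+* K := sh (R := CommRingCat.of K) s rfl
  have hρkap : ∀ c, ρ (kap y p c) = c := fun c =>
    sh_kap y (R := CommRingCat.of K) s rfl (𝟙 _) (by rw [hs, Spec.map_id]) c
  have hρs : Function.Surjective ρ := fun c => ⟨kap y p c, hρkap c⟩
  have hsρ : Spec.map (CommRingCat.ofHom ρ) ≫ Y.fromSpecStalk p = s :=
    Spec_map_sh (R := CommRingCat.of K) s rfl
  refine formallyUnramified_of_dualNumber ρ hρs ?_
  intro θ hfst hsnd a
  let θ' : Y.presheaf.stalk p ⟶ CommRingCat.of (TrivSqZeroExt K K) := CommRingCat.ofHom θ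
  let v : DM K K ⟶ Y := Spec.map θ' ≫ Y.fromSpecStalk p
  have e1 : φ.stalkMap p ≫ θ' = φ.stalkMap p ≫ CommRingCat.ofHom ρ ≫
      CommRingCat.ofHom (TrivSqZeroExt.inlHom K K) := by
    ext c
    · exact hfst _
    · exact hsnd c
  have h1 : v ≫ φ = dM K K ≫ s ≫ φ := by
    rw [← hsρ, dM]
    simp only [v, Category.assoc]
    rw [← Scheme.SpecMap_stalkMap_fromSpecStalk, ← Spec.map_comp_assoc, e1]
    simp only [Spec.map_comp, Category.assoc]
    rfl
  have h2 : v ≫ y = dM K K := by
    rw [← hφ, ← Category.assoc, h1]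
    simp only [Category.assoc]
    rw [hφ, hs, Category.comp_id]
  have e3 : θ' ≫ CommRingCat.ofHom (TrivSqZeroExt.fstHom K K K).toRingHom = CommRingCat.ofHom ρ := by
    ext c
    exact hfst c
  have h3 : cM K K ≫ v = s := by
    rw [cM]
    simp only [v]
    rw [← Spec.map_comp_assoc, e3, hsρ]
  have h4 := H v h2 h3 h1
  have h5 : Spec.map θ' ≫ Y.fromSpecStalk p =
      Spec.map (CommRingCat.ofHom ρ ≫ CommRingCat.ofHom (TrivSqZeroExt.inlHom K K)) ≫
        Y.fromSpecStalk p := by
    rw [Spec.map_comp, Category.assoc, hsρ]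
    exact h4
  have h6 : θ' = CommRingCat.ofHom ρ ≫ CommRingCat.ofHom (TrivSqZeroExt.inlHom K K) :=
    Spec.map_injective ((cancel_mono _).1 h5)
  have h7 : θ a = TrivSqZeroExt.inl (ρ a) := congrArg (fun f => f.hom a) h6
  rw [h7, TrivSqZeroExt.snd_inl]

end Fermat.Agent.S26.Good
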