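/-
S26 / GOOD (architect helper169): the etale criterion in tangent form (ASSEMBLY).
-/
import Fermat.Agent.S26.Good.TanU
import Fermat.Agent.S26.Good.EtcStalk
import Fermat.Agent.S26.Good.EtcOpen

set_option autoImplicit false

universe u

open CategoryTheory CategoryTheory.Limits AlgebraicGeometry

namespace Fermat.Agent.S26.Good

variable {K : Type u} [Field K]

/-- **Etale criterion**: a morphism between smooth `K`-schemes of the same relative dimension whose
tangent map at a rational point is injective is etale at that point. -/
theorem etaleAt_of_tanInj {X Y : Scheme.{u}} (x : X ⟶ SK K) (y : Y ⟶ SK K) (n : ℕ)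
    [SmoothOfRelativeDimension n x] [SmoothOfRelativeDimension n y] (φ : Y ⟶ X) (hφ : φ ≫ x = y)
    (s : SK K ⟶ Y) (hs : s ≫ y = 𝟙 _) (H : TanInj y s φ) : EtaleAt φ (s (cpt K)) := by
  have hx : Smooth x := SmoothOfRelativeDimension.smooth n x
  have hy : Smooth y := SmoothOfRelativeDimension.smooth n y
  have h1 : LocallyOfFiniteType (φ ≫ x) := by rw [hφ]; infer_instance
  have h2 : LocallyOfFiniteType φ := locallyOfFiniteType_of_comp φ x
  have h3 : IsLocallyNoetherian X := LocallyOfFiniteType.isLocallyNoetherian x
  have h4 : LocallyOfFinitePresentation φ := LocallyOfFinitePresentation.iff_locallyOfFiniteType.2 h2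
  exact etaleAt_of_formallyEtale_stalkMap φ _
    (formallyEtale_stalkMap_of_formallyUnramified x y n φ hφ _
      (formallyUnramified_stalkMap_of_tanInj x y φ hφ s hs H))

end Fermat.Agent.S26.Good
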