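/-
S26 / GOOD (architect helper169), leaf GOOD-13.

Multiplication by `N` is etale at the origin if `N ≠ 0` in `K`.
-/
import Fermat.Agent.S26.Good.Add
import Fermat.Agent.S26.Good.Crit

set_option autoImplicit false

universe u

open CategoryTheory CategoryTheory.Limits AlgebraicGeometry

namespace Fermat.Agent.S26.Good

variable {K : Type u} [Field K]

theorem zmulEtale (𝔸 : AbVar K) (g : ℕ) [SmoothOfRelativeDimension g 𝔸.f] :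
    ZmulEtaleNode 𝔸 := by
  intro N hN
  have hφ : 𝔸.zmul N ≫ 𝔸.f = 𝔸.f := (𝔸.idPt ^ N).hom_f
  have hs : (1 : 𝔸.KPt).hom ≫ 𝔸.f = 𝟙 _ := (1 : 𝔸.KPt).hom_f
  refine etaleAt_of_tanInj 𝔸.f 𝔸.f g (𝔸.zmul N) hφ (1 : 𝔸.KPt).hom hs ?_
  intro v hv hb he
  set V : 𝔸.Pt (dM K K) := AbVar.Pt.mk v hv with hV
  have hVK : V ∈ Ker 𝔸 K := (mem_Ker_iff V).2 hb
  have h1 : AbVar.Pt.comp v hv 𝔸.idPt = V := AbVar.Pt.ext (Category.comp_id v)
  have h2 : v ≫ 𝔸.zmul N = (V ^ N).hom := by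
    rw [← h1, ← map_zpow]
    rfl
  have hd : dM K K ≫ 𝟙 (SK K) = dM K K := Category.comp_id _
  have h3 : dM K K ≫ (1 : 𝔸.KPt).hom ≫ 𝔸.zmul N = (1 : 𝔸.Pt (dM K K)).hom := by
    have hW : AbVar.Pt.comp (𝔸 := 𝔸) (dM K K) hd 1 = 1 := map_one _
    have hw : (dM K K ≫ (1 : 𝔸.KPt).hom) ≫ 𝔸.f = dM K K := by
      rw [Category.assoc, hs, Category.comp_id]
    have h4 : AbVar.Pt.comp (dM K K ≫ (1 : 𝔸.KPt).hom) hw 𝔸.idPt = 1 := by
      rw [← hW]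
      exact AbVar.Pt.ext (Category.comp_id _)
    have h5 : (dM K K ≫ (1 : 𝔸.KPt).hom) ≫ 𝔸.zmul N =
        (AbVar.Pt.comp _ hw (𝔸.idPt ^ N)).hom := rfl
    rw [← Category.assoc, h5, map_zpow, h4, one_zpow]
  have h6 : (V ^ N).hom = (1 : 𝔸.Pt (dM K K)).hom := by rw [← h2, he, h3]
  refine eq_of_der_eq_zero 𝔸.f (1 : 𝔸.KPt).hom hs v hv hb
    (IsLocalRing.maximalIdeal (𝔸.A.presheaf.stalk ((1 : 𝔸.KPt).hom (cpt K))) :
      Set (𝔸.A.presheaf.stalk ((1 : 𝔸.KPt).hom (cpt K))))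
    (Ideal.span_eq (IsLocalRing.maximalIdeal (𝔸.A.presheaf.stalk ((1 : 𝔸.KPt).hom (cpt K))))) ?_
  intro a _
  have h7 : N • der v 𝔸.o a = 0 := by
    have h8 := der_zpow hVK N a
    rw [der_congr h6, der_one] at h8
    exact h8.symm
  rw [zsmul_eq_mul] at h7
  exact (mul_eq_zero.1 h7).resolve_left hN

end Fermat.Agent.S26.Good
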