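/-
S26 / GOOD (architect helper169): ASSEMBLY: exports `goodNode`, `zmulEtaleNode`.
-/
import Fermat.Agent.S26.Good.Cons
import Fermat.Agent.S26.Good.CurveDer
import Fermat.Agent.S26.Good.Zmul

set_option autoImplicit false

universe u

open CategoryTheory CategoryTheory.Limits AlgebraicGeometry

namespace Fermat.Agent.S26.Good

variable {K : Type u} [Field K] {𝔸 : AbVar K} {g : ℕ}

/-- the morphism `(x, w) ↦ m ι(x) + τ(w)` (this is `(C.cons m B).τ`, by `rfl`) -/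
noncomputable abbrev consτ (C : Curve 𝔸) (m : ℤ) (B : Based 𝔸) :
    𝔸.Pt (pullback.fst C.c B.w ≫ C.c) :=
  (AbVar.Pt.comp (pullback.fst C.c B.w) rfl C.ι) ^ m *
    AbVar.Pt.comp (pullback.snd C.c B.w) pullback.condition.symm B.τ

/-- the base point of `Γ × W` (this is `(C.cons m B).pt.1`, by `rfl`) -/
noncomputable abbrev conspt (C : Curve 𝔸) (B : Based 𝔸) : SK K ⟶ pullback C.c B.w :=
  pullback.lift C.ε.1 B.pt.1 (by rw [C.ε.2, B.pt.2])

/-- `der_cons`, stated with the explicit pullback -/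
theorem der_cons' (C : Curve 𝔸) (m : ℤ) (B : Based 𝔸) (hB : AbVar.Pt.comp B.pt.1 B.pt.2 B.τ = 1)
    (v : DM K K ⟶ pullback C.c B.w) (hv : v ≫ pullback.fst C.c B.w ≫ C.c = dM K K)
    (hb : cM K K ≫ v = conspt C B) (a : 𝔸.A.presheaf.stalk 𝔸.o) :
    der (v ≫ (consτ C m B).hom) 𝔸.o a =
      m • der ((v ≫ pullback.fst C.c B.w) ≫ C.ι.hom) 𝔸.o a +
        der ((v ≫ pullback.snd C.c B.w) ≫ B.τ.hom) 𝔸.o a :=
  der_cons C m B hB v hv hb a

/-- the morphism `dM ≫ pt ≫ τ` is the trivial point -/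
theorem triv_hom (B : Based 𝔸) (hB : AbVar.Pt.comp B.pt.1 B.pt.2 B.τ = 1) :
    dM K K ≫ B.pt.1 ≫ B.τ.hom = (1 : 𝔸.Pt (dM K K)).hom := by
  have h1 : B.pt.1 ≫ B.τ.hom = (1 : 𝔸.KPt).hom := congrArg AbVar.Pt.hom hB
  have h2 : AbVar.Pt.comp (𝔸 := 𝔸) (dM K K) (Category.comp_id _) (1 : 𝔸.KPt) = 1 := map_one _
  rw [h1]
  exact congrArg AbVar.Pt.hom h2

theorem inv_point (S : CurveSystem 𝔸 g) : Inv S (Based.point 𝔸) ∅ where
  smooth := by
    show SmoothOfRelativeDimension 0 (𝟙 (SK K))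
    infer_instance
  base := map_one _
  off := by
    show ∀ v : DM K K ⟶ SK K, v ≫ 𝟙 (SK K) = dM K K → cM K K ≫ v = 𝟙 (SK K) →
      ∀ j ∉ (∅ : Finset (Fin g)), der (v ≫ (1 : 𝔸.KPt).hom) 𝔸.o (tg S j) = 0
    intro v hv _ j _
    have h2 : AbVar.Pt.comp (𝔸 := 𝔸) v hv (1 : 𝔸.KPt) = 1 := map_one _
    have h3 : v ≫ (1 : 𝔸.KPt).hom = (1 : 𝔸.Pt (dM K K)).hom := congrArg AbVar.Pt.hom h2
    rw [der_congr h3, der_one]
  inj := by
    show ∀ v : DM K K ⟶ SK K, v ≫ 𝟙 (SK K) = dM K K → cM K K ≫ v = 𝟙 (SK K) →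
      (∀ j ∈ (∅ : Finset (Fin g)), der (v ≫ (1 : 𝔸.KPt).hom) 𝔸.o (tg S j) = 0) →
      v = dM K K ≫ 𝟙 (SK K)
    intro v hv _ _
    rw [Category.comp_id] at hv ⊢
    exact hv

theorem inv_cons (S : CurveSystem 𝔸 g) {B : Based 𝔸} {J : Finset (Fin g)} (h : Inv S B J)
    {i : Fin g} (hi : i ∉ J) {m : ℤ} (hm : (m : K) ≠ 0) :
    Inv S ((S.C i).cons m B) (insert i J) := by
  have key : ∀ v : DM K K ⟶ pullback (S.C i).c B.w,
      v ≫ pullback.fst (S.C i).c B.w ≫ (S.C i).c = dM K K →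
      cM K K ≫ v = conspt (S.C i) B →
      (v ≫ pullback.fst (S.C i).c B.w) ≫ (S.C i).c = dM K K ∧
      cM K K ≫ (v ≫ pullback.fst (S.C i).c B.w) = (S.C i).ε.1 ∧
      (v ≫ pullback.snd (S.C i).c B.w) ≫ B.w = dM K K ∧
      cM K K ≫ (v ≫ pullback.snd (S.C i).c B.w) = B.pt.1 := by
    intro v hv hb
    refine ⟨by rw [Category.assoc, hv], ?_, ?_, ?_⟩
    · rw [← Category.assoc, hb, pullback.lift_fst]
    · rw [Category.assoc, ← pullback.condition, hv]
    · rw [← Category.assoc, hb, pullback.lift_snd]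
  refine ⟨?_, cons_base _ _ _ h.base, ?_, ?_⟩
  · rw [Finset.card_insert_of_notMem hi]
    exact cons_smooth _ _ _ _ h.smooth
  · show ∀ v : DM K K ⟶ pullback (S.C i).c B.w,
      v ≫ pullback.fst (S.C i).c B.w ≫ (S.C i).c = dM K K → cM K K ≫ v = conspt (S.C i) B →
      ∀ j ∉ insert i J, der (v ≫ (consτ (S.C i) m B).hom) 𝔸.o (tg S j) = 0
    intro v hv hb j hj
    obtain ⟨h1, h2, h3, h4⟩ := key v hv hb
    rw [Finset.mem_insert, not_or] at hj
    rw [der_cons' _ _ _ h.base v hv hb, der_curve_off S i j hj.1 _ h2, h.off _ h3 h4 j hj.2,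
      smul_zero, add_zero]
  · show ∀ v : DM K K ⟶ pullback (S.C i).c B.w,
      v ≫ pullback.fst (S.C i).c B.w ≫ (S.C i).c = dM K K → cM K K ≫ v = conspt (S.C i) B →
      (∀ j ∈ insert i J, der (v ≫ (consτ (S.C i) m B).hom) 𝔸.o (tg S j) = 0) →
      v = dM K K ≫ conspt (S.C i) B
    intro v hv hb hj
    obtain ⟨h1, h2, h3, h4⟩ := key v hv hb
    have e1 : v ≫ pullback.fst (S.C i).c B.w = dM K K ≫ (S.C i).ε.1 := by
      apply eq_of_der_curve_diag S i _ h1 h2
      have h5 := hj i (Finset.mem_insert_self i J)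
      rw [der_cons' _ _ _ h.base v hv hb, h.off _ h3 h4 i hi, add_zero, zsmul_eq_mul] at h5
      exact (mul_eq_zero.1 h5).resolve_left hm
    have e2 : v ≫ pullback.snd (S.C i).c B.w = dM K K ≫ B.pt.1 := by
      apply h.inj _ h3 h4
      intro j hjJ
      have hji : j ≠ i := fun e => hi (e ▸ hjJ)
      have h5 := hj j (Finset.mem_insert_of_mem hjJ)
      rwa [der_cons' _ _ _ h.base v hv hb, der_curve_off S i j hji _ h2, smul_zero, zero_add] at h5
    apply pullback.hom_ext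
    · rw [e1, Category.assoc, pullback.lift_fst]
    · rw [e2, Category.assoc, pullback.lift_snd]

theorem good_of_inv [SmoothOfRelativeDimension g 𝔸.f] (S : CurveSystem 𝔸 g) {B : Based 𝔸}
    (h : Inv S B Finset.univ) : B.Good := by
  have hsm : SmoothOfRelativeDimension g B.w := by
    have := h.smooth
    rwa [Finset.card_univ, Fintype.card_fin] at this
  refine etaleAt_of_tanInj 𝔸.f B.w g B.τ.hom B.τ.hom_f B.pt.1 B.pt.2 ?_
  intro v hv hb he
  apply h.inj v hv hb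
  intro j _
  rw [der_congr (he.trans (triv_hom B h.base)), der_one]

theorem allGood_of_inv [SmoothOfRelativeDimension g 𝔸.f] (S : CurveSystem 𝔸 g) :
    ∀ (l : List (Fin g)) (B : Based 𝔸) (J : Finset (Fin g)), l.Nodup → (∀ i ∈ l, i ∉ J) →
      (∀ i, i ∈ l ∨ i ∈ J) → Inv S B J →
      AllGood {m : ℤ | (m : K) ≠ 0} (l.map S.C) B := by
  intro l
  induction l with
  | nil =>
    intro B J _ _ hcov h
    rw [List.map_nil, allGood_nil]
    have hJ : J = Finset.univ := Finset.eq_univ_iff_forall.2 fun i => by simpa using hcov i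
    exact good_of_inv S (hJ ▸ h)
  | cons i l ih =>
    intro B J hnd hdis hcov h
    rw [List.map_cons, allGood_cons]
    intro m hm
    rw [List.nodup_cons] at hnd
    refine ih _ (insert i J) hnd.2 ?_ ?_ (inv_cons S h (hdis i (List.mem_cons_self)) hm)
    · intro k hk hkJ
      rcases Finset.mem_insert.1 hkJ with rfl | hkJ
      · exact hnd.1 hk
      · exact hdis k (List.mem_cons_of_mem _ hk) hkJ
    · intro k
      rcases hcov k with hk | hk
      · rcases List.mem_cons.1 hk with rfl | hk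
        · exact Or.inr (Finset.mem_insert_self _ _)
        · exact Or.inl hk
      · exact Or.inr (Finset.mem_insert_of_mem hk)

/-- **Export 1 of block GOOD.** -/
theorem goodNode [IsAlgClosed K] (𝔸 : AbVar K) (g : ℕ) [SmoothOfRelativeDimension g 𝔸.f] :
    GoodNode 𝔸 g := by
  intro S
  refine ⟨(List.finRange g).map S.C, by simp, ?_⟩
  exact allGood_of_inv S (List.finRange g) _ ∅ (List.nodup_finRange g) (fun _ _ => by simp)
    (fun i => Or.inl (List.mem_finRange i)) (inv_point S)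

/-- **Export 2 of block GOOD.** -/
theorem zmulEtaleNode [IsAlgClosed K] (𝔸 : AbVar K) (g : ℕ) [SmoothOfRelativeDimension g 𝔸.f] :
    ZmulEtaleNode 𝔸 := zmulEtale 𝔸 g

end Fermat.Agent.S26.Good
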